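/-
S58 brick (b) (helper23): reduction of points of a Weierstrass curve modulo a valuation subring.

Part 1: the total reduction function `rd A : L → ResidueField A` (zero outside `A`) and its
ring-hom-like properties on `A`.
-/
import Mathlib

set_option autoImplicit false

namespace Fermat.Agent.RedTors23

open IsLocalRing

variable {L : Type*} [Field L] (A : ValuationSubring L)

/-- The total reduction map `L → A/𝔪`: the residue class on `A`, and `0` outside `A`. -/
noncomputable def rd (x : L) : ResidueField A :=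
  haveI := Classical.propDecidable (x ∈ A)
  if h : x ∈ A then residue A ⟨x, h⟩ else 0

variable {A}

theorem rd_of_mem {x : L} (h : x ∈ A) : rd A x = residue A ⟨x, h⟩ := by
  unfold rd; exact dif_pos h

theorem rd_coe (a : A) : rd A (a : L) = residue A a := by
  rw [rd_of_mem a.2]

theorem rd_of_not_mem {x : L} (h : x ∉ A) : rd A x = 0 := by
  unfold rd; exact dif_neg h

@[simp] theorem rd_zero : rd A (0 : L) = 0 := by
  rw [rd_of_mem A.zero_mem]; exact map_zero _

@[simp] theorem rd_one : rd A (1 : L) = 1 := by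
  rw [rd_of_mem A.one_mem]; exact map_one _

theorem rd_add {x y : L} (hx : x ∈ A) (hy : y ∈ A) : rd A (x + y) = rd A x + rd A y := by
  rw [rd_of_mem hx, rd_of_mem hy, rd_of_mem (A.add_mem _ _ hx hy), ← map_add]; rfl

theorem rd_mul {x y : L} (hx : x ∈ A) (hy : y ∈ A) : rd A (x * y) = rd A x * rd A y := by
  rw [rd_of_mem hx, rd_of_mem hy, rd_of_mem (A.mul_mem _ _ hx hy), ← map_mul]; rfl

theorem rd_neg {x : L} (hx : x ∈ A) : rd A (-x) = -rd A x := by
  rw [rd_of_mem hx, rd_of_mem (A.neg_mem _ hx), ← map_neg]; rfl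

theorem rd_sub {x y : L} (hx : x ∈ A) (hy : y ∈ A) : rd A (x - y) = rd A x - rd A y := by
  rw [rd_of_mem hx, rd_of_mem hy, rd_of_mem (A.sub_mem hx hy), ← map_sub]; rfl

theorem rd_pow {x : L} (hx : x ∈ A) (n : ℕ) : rd A (x ^ n) = rd A x ^ n := by
  rw [rd_of_mem hx, rd_of_mem (pow_mem hx n), ← map_pow]; rfl

theorem rd_eq_zero_iff {x : L} (hx : x ∈ A) : rd A x = 0 ↔ A.valuation x < 1 := by
  rw [rd_of_mem hx, residue_eq_zero_iff, ValuationSubring.valuation_lt_one_iff]

theorem rd_eq_zero_iff' {x : L} : rd A x = 0 ↔ x ∉ A ∨ A.valuation x < 1 := by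
  by_cases hx : x ∈ A
  · rw [rd_eq_zero_iff hx]; tauto
  · rw [rd_of_not_mem hx]; tauto

theorem rd_eq_rd_iff {x y : L} (hx : x ∈ A) (hy : y ∈ A) :
    rd A x = rd A y ↔ A.valuation (x - y) < 1 := by
  rw [← sub_eq_zero, ← rd_sub hx hy, rd_eq_zero_iff (A.sub_mem hx hy)]

theorem valuation_eq_one_of_rd_ne_zero {x : L} (h : rd A x ≠ 0) : A.valuation x = 1 := by
  have hx : x ∈ A := by
    by_contra hx; exact h (rd_of_not_mem hx)
  have h1 : ¬ A.valuation x < 1 := fun h1 => h ((rd_eq_zero_iff hx).mpr h1)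
  exact le_antisymm ((A.valuation_le_one_iff x).mpr hx) (not_lt.mp h1)

theorem mem_of_rd_ne_zero {x : L} (h : rd A x ≠ 0) : x ∈ A := by
  by_contra hx; exact h (rd_of_not_mem hx)

theorem inv_mem_of_rd_ne_zero {x : L} (h : rd A x ≠ 0) : x⁻¹ ∈ A := by
  rw [← A.valuation_le_one_iff, map_inv₀, valuation_eq_one_of_rd_ne_zero h, inv_one]

theorem rd_inv {x : L} (h : rd A x ≠ 0) : rd A x⁻¹ = (rd A x)⁻¹ := by
  have hx := mem_of_rd_ne_zero h
  have hx' := inv_mem_of_rd_ne_zero h
  have hx0 : x ≠ 0 := by rintro rfl; exact h rd_zero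
  apply eq_inv_of_mul_eq_one_left
  rw [← rd_mul hx' hx, inv_mul_cancel₀ hx0, rd_one]

theorem div_mem_of_rd_ne_zero {x y : L} (hx : x ∈ A) (h : rd A y ≠ 0) : x / y ∈ A := by
  rw [div_eq_mul_inv]; exact A.mul_mem _ _ hx (inv_mem_of_rd_ne_zero h)

theorem rd_div {x y : L} (hx : x ∈ A) (h : rd A y ≠ 0) : rd A (x / y) = rd A x / rd A y := by
  rw [div_eq_mul_inv, rd_mul hx (inv_mem_of_rd_ne_zero h), rd_inv h, div_eq_mul_inv]

theorem rd_natCast (n : ℕ) : rd A (n : L) = (n : ResidueField A) := by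
  have h : ((n : A) : L) = (n : L) := by simp
  rw [← h, rd_coe, map_natCast]

theorem rd_intCast (n : ℤ) : rd A (n : L) = (n : ResidueField A) := by
  have h : ((n : A) : L) = (n : L) := by simp
  rw [← h, rd_coe, map_intCast]

theorem natCast_mem (n : ℕ) : (n : L) ∈ A := by
  have h : ((n : A) : L) = (n : L) := by simp
  rw [← h]; exact (n : A).2

theorem intCast_mem (n : ℤ) : (n : L) ∈ A := by
  have h : ((n : A) : L) = (n : L) := by simp
  rw [← h]; exact (n : A).2

theorem not_mem_iff {x : L} : x ∉ A ↔ 1 < A.valuation x := by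
  rw [← A.valuation_le_one_iff, not_le]

end Fermat.Agent.RedTors23
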