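/-
S58 brick (b) (helper23): reduction of points of a Weierstrass curve modulo a valuation subring.

Part 2: the two universal relations characterising the slope of the chord/tangent line
(valid for chords and tangents alike):
  `ℓ * (x₁ - x₂) = y₁ - y₂`   and   `ℓ * (y₁ - negY x₂ y₂) = x₁² + x₁x₂ + x₂² + a₂(x₁+x₂) + a₄ - a₁y₁`.
-/
import Mathlib

set_option autoImplicit false

open WeierstrassCurve WeierstrassCurve.Affine

namespace Fermat.Agent.RedTors23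

section Ring

variable {R : Type*} [CommRing R] (W : Affine R)

/-- denominator of the uniform slope. -/
def chD (x₂ y₁ y₂ : R) : R := y₁ - W.negY x₂ y₂

/-- numerator of the uniform slope. -/
def chN (x₁ x₂ y₁ : R) : R :=
  x₁ ^ 2 + x₁ * x₂ + x₂ ^ 2 + W.a₂ * (x₁ + x₂) + W.a₄ - W.a₁ * y₁

/-- the basic identity `(y₁ - y₂) * D = (x₁ - x₂) * N` for two points on the curve. -/
theorem sub_mul_chD {x₁ x₂ y₁ y₂ : R} (h₁ : W.Equation x₁ y₁) (h₂ : W.Equation x₂ y₂) :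
    (y₁ - y₂) * chD W x₂ y₁ y₂ = (x₁ - x₂) * chN W x₁ x₂ y₁ := by
  rw [equation_iff] at h₁ h₂
  rw [chD, chN, negY]
  linear_combination h₁ - h₂

theorem map_chD {S : Type*} [CommRing S] (f : R →+* S) (x₂ y₁ y₂ : R) :
    chD (W.map f) (f x₂) (f y₁) (f y₂) = f (chD W x₂ y₁ y₂) := by
  simp only [chD, negY, map_a₁, map_a₃, map_sub, map_mul, map_neg]

theorem map_chN {S : Type*} [CommRing S] (f : R →+* S) (x₁ x₂ y₁ : R) :
    chN (W.map f) (f x₁) (f x₂) (f y₁) = f (chN W x₁ x₂ y₁) := by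
  simp only [chN, map_a₁, map_a₂, map_a₄, map_sub, map_mul, map_add, map_pow]

end Ring

section Field

variable {F : Type*} [Field F] [DecidableEq F] (W : Affine F)

theorem slope_mul_sub {x₁ x₂ y₁ y₂ : F} (h₁ : W.Equation x₁ y₁) (h₂ : W.Equation x₂ y₂)
    (hxy : ¬(x₁ = x₂ ∧ y₁ = W.negY x₂ y₂)) :
    W.slope x₁ x₂ y₁ y₂ * (x₁ - x₂) = y₁ - y₂ := by
  by_cases hx : x₁ = x₂
  · have hy : y₁ ≠ W.negY x₂ y₂ := fun h => hxy ⟨hx, h⟩
    have hyy : y₁ = y₂ := Y_eq_of_Y_ne h₁ h₂ hx hy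
    rw [hx, hyy, sub_self, sub_self, mul_zero]
  · rw [slope_of_X_ne hx, div_mul_cancel₀ _ (sub_ne_zero.mpr hx)]

theorem slope_mul_chD {x₁ x₂ y₁ y₂ : F} (h₁ : W.Equation x₁ y₁) (h₂ : W.Equation x₂ y₂)
    (hxy : ¬(x₁ = x₂ ∧ y₁ = W.negY x₂ y₂)) :
    W.slope x₁ x₂ y₁ y₂ * chD W x₂ y₁ y₂ = chN W x₁ x₂ y₁ := by
  by_cases hx : x₁ = x₂
  · have hy : y₁ ≠ W.negY x₂ y₂ := fun h => hxy ⟨hx, h⟩
    have hyy : y₁ = y₂ := Y_eq_of_Y_ne h₁ h₂ hx hy
    subst hx; subst hyy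
    rw [slope_of_Y_ne rfl hy, chD, div_mul_cancel₀ _ (sub_ne_zero.mpr hy), chN]
    ring
  · rw [slope_of_X_ne hx, div_mul_eq_mul_div, sub_mul_chD W h₁ h₂,
      mul_div_cancel_left₀ _ (sub_ne_zero.mpr hx)]

/-- the two relations determine the slope. -/
theorem eq_slope_of_rel {x₁ x₂ y₁ y₂ ℓ : F} (h₁ : W.Equation x₁ y₁) (h₂ : W.Equation x₂ y₂)
    (hxy : ¬(x₁ = x₂ ∧ y₁ = W.negY x₂ y₂))
    (e₁ : ℓ * (x₁ - x₂) = y₁ - y₂) (e₂ : ℓ * chD W x₂ y₁ y₂ = chN W x₁ x₂ y₁) :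
    ℓ = W.slope x₁ x₂ y₁ y₂ := by
  by_cases hx : x₁ = x₂
  · have hy : y₁ ≠ W.negY x₂ y₂ := fun h => hxy ⟨hx, h⟩
    have hD : chD W x₂ y₁ y₂ ≠ 0 := sub_ne_zero.mpr hy
    have := slope_mul_chD W h₁ h₂ hxy
    exact mul_right_cancel₀ hD (e₂.trans this.symm)
  · have hD : x₁ - x₂ ≠ 0 := sub_ne_zero.mpr hx
    have := slope_mul_sub W h₁ h₂ hxy
    exact mul_right_cancel₀ hD (e₁.trans this.symm)

omit [DecidableEq F] in
/-- If both relations degenerate (`x₁ = x₂`, `D = 0`, `y₁ = y₂`, `N = 0`) the point is singular. -/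
theorem not_nonsingular_of_degenerate {x y : F} (hD : chD W x y y = 0) (hN : chN W x x y = 0) :
    ¬ W.Nonsingular x y := by
  rw [nonsingular_iff]
  rintro ⟨-, h | h⟩
  · apply h
    rw [chN] at hN
    linear_combination -hN
  · apply h
    rw [chD, negY] at hD
    linear_combination hD

end Field

end Fermat.Agent.RedTors23
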