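/-
S58 brick (b) (helper23): reduction of points of a Weierstrass curve modulo a valuation subring.

Part 3: the reduction map on points `red A E Ē : E.Point → Ē.Point` for a Weierstrass curve `E`
over a field `L` with coefficients in a valuation subring `A`, `Ē` its reduction over the residue
field, and (for good reduction, `Ē.Δ ≠ 0`) its additivity.  The kernel is the subgroup `E₁` of
`Fermat.Agent.S05.Kernel`.
-/
import Mathlib
import Fermat.Agent.S05.Kernel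
import Fermat.Agent.RedTors23.Rd
import Fermat.Agent.RedTors23.Slope

set_option autoImplicit false

open WeierstrassCurve WeierstrassCurve.Affine IsLocalRing

namespace Fermat.Agent.RedTors23

open Fermat.Agent.S05.Kernel

variable {L : Type*} [Field L] (A : ValuationSubring L)

/-- `Ē` (over the residue field of `A`) is the reduction of `E` (over `L`): both come from a
Weierstrass curve with coefficients in `A`. -/
def IsRed (E : Affine L) (Ē : Affine (ResidueField A)) : Prop :=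
  ∃ WA : Affine A, WA.map A.subtype = E ∧ WA.map (residue A) = Ē

/-- Reduction of points: an affine point with coordinates in `A` whose reduction is a nonsingular
point of `Ē` goes to that point; everything else goes to `0`. -/
noncomputable def red (E : Affine L) (Ē : Affine (ResidueField A)) : E.Point → Ē.Point
  | .zero => 0
  | .some x y _ =>
    haveI := Classical.propDecidable (x ∈ A ∧ y ∈ A ∧ Ē.Nonsingular (rd A x) (rd A y))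
    if h : x ∈ A ∧ y ∈ A ∧ Ē.Nonsingular (rd A x) (rd A y) then
      .some (rd A x) (rd A y) h.2.2 else 0

variable {A} {E : Affine L} {Ē : Affine (ResidueField A)}

@[simp] theorem red_zero : red A E Ē 0 = 0 := rfl

theorem red_some_of {x y : L} (h : E.Nonsingular x y)
    (hxy : x ∈ A ∧ y ∈ A ∧ Ē.Nonsingular (rd A x) (rd A y)) :
    red A E Ē (Point.some x y h) = Point.some (rd A x) (rd A y) hxy.2.2 := by
  unfold red; exact dif_pos hxy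

theorem red_some_of_not {x y : L} (h : E.Nonsingular x y)
    (hxy : ¬(x ∈ A ∧ y ∈ A ∧ Ē.Nonsingular (rd A x) (rd A y))) :
    red A E Ē (Point.some x y h) = 0 := by
  unfold red; exact dif_neg hxy

namespace IsRed

variable (hred : IsRed A E Ē)
include hred

theorem integralCoeffs : IntegralCoeffs A.valuation E := by
  obtain ⟨WA, rfl, rfl⟩ := hred
  refine ⟨?_, ?_, ?_, ?_, ?_⟩ <;>
  · rw [A.valuation_le_one_iff]
    exact Subtype.property _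

/-- integral points on `E` reduce to points on `Ē`. -/
theorem equation_rd {x y : L} (h : E.Equation x y) (hx : x ∈ A) (hy : y ∈ A) :
    Ē.Equation (rd A x) (rd A y) := by
  obtain ⟨WA, rfl, rfl⟩ := hred
  have h' : WA.Equation (⟨x, hx⟩ : A) ⟨y, hy⟩ :=
    (map_equation WA (f := A.subtype) Subtype.val_injective ⟨x, hx⟩ ⟨y, hy⟩).mp h
  rw [rd_of_mem hx, rd_of_mem hy]
  exact h'.map (residue A)

theorem nonsingular_rd (hΔ : Ē.Δ ≠ 0) {x y : L} (h : E.Equation x y) (hx : x ∈ A) (hy : y ∈ A) :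
    Ē.Nonsingular (rd A x) (rd A y) :=
  (equation_iff_nonsingular_of_Δ_ne_zero hΔ).mp (hred.equation_rd h hx hy)

/-- a point with integral `x` has integral `y`. -/
theorem y_mem {x y : L} (h : E.Equation x y) (hx : x ∈ A) : y ∈ A := by
  by_contra hy
  rw [not_mem_iff] at hy
  have := vx_of_vy hred.integralCoeffs h hy
  rw [← not_mem_iff] at this
  exact this hx

theorem red_some (hΔ : Ē.Δ ≠ 0) {x y : L} (h : E.Nonsingular x y) (hx : x ∈ A) :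
    red A E Ē (Point.some x y h) = Point.some (rd A x) (rd A y)
      (hred.nonsingular_rd hΔ h.1 hx (hred.y_mem h.1 hx)) :=
  red_some_of h ⟨hx, hred.y_mem h.1 hx, hred.nonsingular_rd hΔ h.1 hx (hred.y_mem h.1 hx)⟩

omit hred in
theorem red_some_of_not_mem {x y : L} (h : E.Nonsingular x y) (hx : x ∉ A) :
    red A E Ē (Point.some x y h) = 0 :=
  red_some_of_not h fun h' => hx h'.1

/-- The kernel of reduction is `E₁`. -/
theorem red_eq_zero_iff (hΔ : Ē.Δ ≠ 0) (P : E.Point) :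
    red A E Ē P = 0 ↔ InE1 A.valuation P := by
  rcases P with _ | ⟨x, y, h⟩
  · exact ⟨fun _ => inE1_zero _, fun _ => rfl⟩
  · rw [inE1_some, ← not_mem_iff]
    by_cases hx : x ∈ A
    · rw [hred.red_some hΔ h hx]
      exact ⟨fun h0 => absurd h0 (Point.some_ne_zero _), fun h0 => absurd hx h0⟩
    · rw [red_some_of_not_mem h hx]
      exact ⟨fun _ => hx, fun _ => rfl⟩

theorem rd_negY {x y : L} (hx : x ∈ A) (hy : y ∈ A) :
    E.negY x y ∈ A ∧ rd A (E.negY x y) = Ē.negY (rd A x) (rd A y) := by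
  obtain ⟨WA, rfl, rfl⟩ := hred
  have e : (WA.map A.subtype).negY x y = ((WA.negY ⟨x, hx⟩ ⟨y, hy⟩ : A) : L) :=
    map_negY (W' := WA) A.subtype ⟨x, hx⟩ ⟨y, hy⟩
  rw [e]
  refine ⟨Subtype.property _, ?_⟩
  rw [rd_coe, rd_of_mem hx, rd_of_mem hy, ← map_negY]

theorem rd_addX {x₁ x₂ ℓ : L} (hx₁ : x₁ ∈ A) (hx₂ : x₂ ∈ A) (hℓ : ℓ ∈ A) :
    E.addX x₁ x₂ ℓ ∈ A ∧ rd A (E.addX x₁ x₂ ℓ) = Ē.addX (rd A x₁) (rd A x₂) (rd A ℓ) := by
  obtain ⟨WA, rfl, rfl⟩ := hred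
  have e : (WA.map A.subtype).addX x₁ x₂ ℓ = ((WA.addX ⟨x₁, hx₁⟩ ⟨x₂, hx₂⟩ ⟨ℓ, hℓ⟩ : A) : L) :=
    map_addX (W' := WA) A.subtype ⟨x₁, hx₁⟩ ⟨x₂, hx₂⟩ ⟨ℓ, hℓ⟩
  rw [e]
  refine ⟨Subtype.property _, ?_⟩
  rw [rd_coe, rd_of_mem hx₁, rd_of_mem hx₂, rd_of_mem hℓ, ← map_addX]

theorem rd_addY {x₁ x₂ y₁ ℓ : L} (hx₁ : x₁ ∈ A) (hx₂ : x₂ ∈ A) (hy₁ : y₁ ∈ A) (hℓ : ℓ ∈ A) :
    E.addY x₁ x₂ y₁ ℓ ∈ A ∧
      rd A (E.addY x₁ x₂ y₁ ℓ) = Ē.addY (rd A x₁) (rd A x₂) (rd A y₁) (rd A ℓ) := by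
  obtain ⟨WA, rfl, rfl⟩ := hred
  have e : (WA.map A.subtype).addY x₁ x₂ y₁ ℓ =
      ((WA.addY ⟨x₁, hx₁⟩ ⟨x₂, hx₂⟩ ⟨y₁, hy₁⟩ ⟨ℓ, hℓ⟩ : A) : L) :=
    map_addY (W' := WA) A.subtype ⟨x₁, hx₁⟩ ⟨y₁, hy₁⟩ ⟨x₂, hx₂⟩ ⟨ℓ, hℓ⟩
  rw [e]
  refine ⟨Subtype.property _, ?_⟩
  rw [rd_coe, rd_of_mem hx₁, rd_of_mem hx₂, rd_of_mem hy₁, rd_of_mem hℓ, ← map_addY]

theorem rd_chD {x₂ y₁ y₂ : L} (hx₂ : x₂ ∈ A) (hy₁ : y₁ ∈ A) (hy₂ : y₂ ∈ A) :
    chD E x₂ y₁ y₂ ∈ A ∧ rd A (chD E x₂ y₁ y₂) = chD Ē (rd A x₂) (rd A y₁) (rd A y₂) := by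
  obtain ⟨WA, rfl, rfl⟩ := hred
  have e : chD (WA.map A.subtype) x₂ y₁ y₂ = ((chD WA ⟨x₂, hx₂⟩ ⟨y₁, hy₁⟩ ⟨y₂, hy₂⟩ : A) : L) :=
    map_chD WA A.subtype ⟨x₂, hx₂⟩ ⟨y₁, hy₁⟩ ⟨y₂, hy₂⟩
  rw [e]
  refine ⟨Subtype.property _, ?_⟩
  rw [rd_coe, rd_of_mem hx₂, rd_of_mem hy₁, rd_of_mem hy₂, ← map_chD]

theorem rd_chN {x₁ x₂ y₁ : L} (hx₁ : x₁ ∈ A) (hx₂ : x₂ ∈ A) (hy₁ : y₁ ∈ A) :
    chN E x₁ x₂ y₁ ∈ A ∧ rd A (chN E x₁ x₂ y₁) = chN Ē (rd A x₁) (rd A x₂) (rd A y₁) := by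
  obtain ⟨WA, rfl, rfl⟩ := hred
  have e : chN (WA.map A.subtype) x₁ x₂ y₁ = ((chN WA ⟨x₁, hx₁⟩ ⟨x₂, hx₂⟩ ⟨y₁, hy₁⟩ : A) : L) :=
    map_chN WA A.subtype ⟨x₁, hx₁⟩ ⟨x₂, hx₂⟩ ⟨y₁, hy₁⟩
  rw [e]
  refine ⟨Subtype.property _, ?_⟩
  rw [rd_coe, rd_of_mem hx₁, rd_of_mem hx₂, rd_of_mem hy₁, ← map_chN]

end IsRed

end Fermat.Agent.RedTors23
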