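/-
S58 brick (b) (helper23): reduction of points of a Weierstrass curve modulo a valuation subring.

Part 4: for good reduction (`Ē.Δ ≠ 0`) the reduction map `red A E Ē : E.Point → Ē.Point` is a group
homomorphism, with kernel `E₁`; it is injective on torsion of order prime to the residue
characteristic.
-/
import Mathlib
import Fermat.Agent.S05.Kernel
import Fermat.Agent.RedTors23.Rd
import Fermat.Agent.RedTors23.Slope
import Fermat.Agent.RedTors23.Red

set_option autoImplicit false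

open WeierstrassCurve WeierstrassCurve.Affine IsLocalRing

namespace Fermat.Agent.RedTors23

open Fermat.Agent.S05.Kernel

variable {L : Type*} [Field L] {A : ValuationSubring L}
  {E : Affine L} {Ē : Affine (ResidueField A)}

namespace IsRed

variable (hred : IsRed A E Ē)
include hred

/-- a non-integral slope gives a non-integral `x`-coordinate of the sum. -/
theorem addX_not_mem {x₁ x₂ ℓ : L} (hx₁ : x₁ ∈ A) (hx₂ : x₂ ∈ A) (hℓ : ℓ ∉ A) :
    E.addX x₁ x₂ ℓ ∉ A := by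
  obtain ⟨ha₁, ha₂, -, -, -⟩ := hred.integralCoeffs
  rw [not_mem_iff] at hℓ ⊢
  rw [← A.valuation_le_one_iff] at hx₁ hx₂
  set v := A.valuation with hv
  have hvL2 : v (ℓ ^ 2) = v ℓ ^ 2 := map_pow v ℓ 2
  have hLlt : v ℓ < v ℓ ^ 2 := by
    have hpos : 0 < v ℓ := lt_trans zero_lt_one hℓ
    calc v ℓ = v ℓ * 1 := (mul_one _).symm
      _ < v ℓ * v ℓ := mul_lt_mul_of_pos_left hℓ hpos
      _ = v ℓ ^ 2 := (sq _).symm
  have hrest : v (E.a₁ * ℓ - E.a₂ - x₁ - x₂) ≤ v ℓ := by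
    have t1 : v (E.a₁ * ℓ) ≤ v ℓ := by
      rw [map_mul]
      calc v E.a₁ * v ℓ ≤ 1 * v ℓ := mul_le_mul_left ha₁ _
        _ = v ℓ := one_mul _
    have t2 : v E.a₂ ≤ v ℓ := ha₂.trans hℓ.le
    have t3 : v x₁ ≤ v ℓ := hx₁.trans hℓ.le
    have t4 : v x₂ ≤ v ℓ := hx₂.trans hℓ.le
    exact v.map_sub_le (v.map_sub_le (v.map_sub_le t1 t2) t3) t4
  have hsum : E.addX x₁ x₂ ℓ = ℓ ^ 2 + (E.a₁ * ℓ - E.a₂ - x₁ - x₂) := by
    rw [addX]; ring
  rw [hsum, v.map_add_eq_of_lt_left (by rw [hvL2]; exact lt_of_le_of_lt hrest hLlt), hvL2]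
  exact lt_trans hℓ hLlt

variable [DecidableEq L] [DecidableEq (ResidueField A)]

/-- Additivity of reduction on two integral affine points. -/
theorem red_add_some (hΔ : Ē.Δ ≠ 0) {x₁ y₁ x₂ y₂ : L} (h₁ : E.Nonsingular x₁ y₁)
    (h₂ : E.Nonsingular x₂ y₂) (hx₁ : x₁ ∈ A) (hx₂ : x₂ ∈ A) :
    red A E Ē (Point.some x₁ y₁ h₁ + Point.some x₂ y₂ h₂) =
      red A E Ē (Point.some x₁ y₁ h₁) + red A E Ē (Point.some x₂ y₂ h₂) := by
  have hy₁ : y₁ ∈ A := hred.y_mem h₁.1 hx₁
  have hy₂ : y₂ ∈ A := hred.y_mem h₂.1 hx₂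
  have hn₁ := hred.nonsingular_rd hΔ h₁.1 hx₁ hy₁
  have hn₂ := hred.nonsingular_rd hΔ h₂.1 hx₂ hy₂
  rw [hred.red_some hΔ h₁ hx₁, hred.red_some hΔ h₂ hx₂]
  by_cases hxy : x₁ = x₂ ∧ y₁ = E.negY x₂ y₂
  · rw [Point.add_of_Y_eq hxy.1 hxy.2, red_zero]
    symm
    apply Point.add_of_Y_eq
    · rw [hxy.1]
    · rw [hxy.2, (hred.rd_negY hx₂ hy₂).2]
  · rw [Point.add_some hxy]
    set ℓ := E.slope x₁ x₂ y₁ y₂ with hℓdef
    have e₁ : ℓ * (x₁ - x₂) = y₁ - y₂ := slope_mul_sub E h₁.1 h₂.1 hxy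
    have e₂ : ℓ * chD E x₂ y₁ y₂ = chN E x₁ x₂ y₁ := slope_mul_chD E h₁.1 h₂.1 hxy
    obtain ⟨hDm, hDr⟩ := hred.rd_chD hx₂ hy₁ hy₂
    obtain ⟨hNm, hNr⟩ := hred.rd_chN hx₁ hx₂ hy₁
    -- reduced relations, valid as soon as `ℓ ∈ A`
    have red₁ : ℓ ∈ A → rd A ℓ * (rd A x₁ - rd A x₂) = rd A y₁ - rd A y₂ := by
      intro hℓ
      rw [← rd_sub hx₁ hx₂, ← rd_mul hℓ (A.sub_mem hx₁ hx₂), e₁, rd_sub hy₁ hy₂]
    have red₂ : ℓ ∈ A → rd A ℓ * chD Ē (rd A x₂) (rd A y₁) (rd A y₂) =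
        chN Ē (rd A x₁) (rd A x₂) (rd A y₁) := by
      intro hℓ
      rw [← hDr, ← rd_mul hℓ hDm, e₂, hNr]
    by_cases hxy' : rd A x₁ = rd A x₂ ∧ rd A y₁ = Ē.negY (rd A x₂) (rd A y₂)
    · -- the reduced points are opposite: the slope is not integral
      rw [Point.add_of_Y_eq hxy'.1 hxy'.2]
      have hℓ : ℓ ∉ A := by
        intro hℓ
        have r₁ := red₁ hℓ
        have r₂ := red₂ hℓ
        rw [hxy'.1, sub_self, mul_zero] at r₁
        have hyy : rd A y₁ = rd A y₂ := sub_eq_zero.mp r₁.symm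
        have hD0 : chD Ē (rd A x₂) (rd A y₁) (rd A y₂) = 0 := by
          rw [chD, sub_eq_zero]; exact hxy'.2
        rw [hD0, mul_zero, hxy'.1, hyy] at r₂
        rw [hyy] at hD0
        exact not_nonsingular_of_degenerate Ē hD0 r₂.symm hn₂
      exact red_some_of_not_mem _ (hred.addX_not_mem hx₁ hx₂ hℓ)
    · -- generic case: the slope is integral and reduces to the slope
      have hℓ : ℓ ∈ A := by
        by_cases hxr : rd A x₁ = rd A x₂
        · have hD : rd A (chD E x₂ y₁ y₂) ≠ 0 := by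
            rw [hDr, chD, sub_ne_zero]
            exact fun h => hxy' ⟨hxr, h⟩
          have hD0 : chD E x₂ y₁ y₂ ≠ 0 := by
            intro h0; rw [h0, rd_zero] at hD; exact hD rfl
          have : ℓ = chN E x₁ x₂ y₁ / chD E x₂ y₁ y₂ := by
            rw [eq_div_iff hD0, e₂]
          rw [this]
          exact div_mem_of_rd_ne_zero hNm hD
        · have hD : rd A (x₁ - x₂) ≠ 0 := by
            rw [rd_sub hx₁ hx₂, sub_ne_zero]; exact hxr
          have hD0 : x₁ - x₂ ≠ 0 := by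
            intro h0; rw [h0, rd_zero] at hD; exact hD rfl
          have : ℓ = (y₁ - y₂) / (x₁ - x₂) := by
            rw [eq_div_iff hD0, e₁]
          rw [this]
          exact div_mem_of_rd_ne_zero (A.sub_mem hy₁ hy₂) hD
      have hsl : rd A ℓ = Ē.slope (rd A x₁) (rd A x₂) (rd A y₁) (rd A y₂) :=
        eq_slope_of_rel Ē hn₁.1 hn₂.1 hxy' (red₁ hℓ) (red₂ hℓ)
      obtain ⟨hXm, hXr⟩ := hred.rd_addX hx₁ hx₂ hℓ
      obtain ⟨hYm, hYr⟩ := hred.rd_addY hx₁ hx₂ hy₁ hℓ
      rw [hred.red_some hΔ _ hXm, Point.add_some hxy']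
      simp only [Point.some.injEq]
      rw [hXr, hYr, hsl]
      exact ⟨rfl, rfl⟩

omit [DecidableEq L] in
theorem red_neg (hΔ : Ē.Δ ≠ 0) (P : E.Point) : red A E Ē (-P) = -red A E Ē P := by
  rcases P with _ | ⟨x, y, h⟩
  · rfl
  · by_cases hx : x ∈ A
    · have hy := hred.y_mem h.1 hx
      rw [Point.neg_some, hred.red_some hΔ _ hx, hred.red_some hΔ h hx, Point.neg_some]
      simp only [Point.some.injEq, true_and]
      exact (hred.rd_negY hx hy).2
    · rw [Point.neg_some, red_some_of_not_mem _ hx, red_some_of_not_mem _ hx, neg_zero]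

/-- **Reduction is additive** (good reduction). -/
theorem red_add (hΔ : Ē.Δ ≠ 0) (P Q : E.Point) :
    red A E Ē (P + Q) = red A E Ē P + red A E Ē Q := by
  have hW := hred.integralCoeffs
  -- case: `Q` in the kernel
  have key : ∀ P Q : E.Point, InE1 A.valuation Q →
      red A E Ē (P + Q) = red A E Ē P + red A E Ē Q := by
    intro P Q hQ
    rw [(hred.red_eq_zero_iff hΔ Q).mpr hQ, add_zero]
    by_cases hP : InE1 A.valuation P
    · have hPQ : InE1 A.valuation (P + Q) := (E1 A.valuation E hW).add_mem hP hQ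
      rw [(hred.red_eq_zero_iff hΔ P).mpr hP, (hred.red_eq_zero_iff hΔ _).mpr hPQ]
    · -- `P` and `R = P + Q` are integral affine points, `Q = R + (-P)`
      have hR : ¬ InE1 A.valuation (P + Q) := by
        intro hR
        apply hP
        have : P = (P + Q) - Q := by abel
        rw [this]
        exact (E1 A.valuation E hW).sub_mem hR hQ
      rcases P with _ | ⟨x, y, h⟩
      · exact absurd (inE1_zero _) hP
      rcases hPQ : (Point.some x y h + Q) with _ | ⟨x', y', h'⟩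
      · rw [hPQ] at hR; exact absurd (inE1_zero _) hR
      rw [hPQ] at hR
      rw [inE1_some, ← not_mem_iff, not_not] at hP hR
      have hQ' : Q = Point.some x' y' h' + -(Point.some x y h) := by
        rw [← hPQ]; abel
      have h0 : red A E Ē Q = 0 := (hred.red_eq_zero_iff hΔ Q).mpr hQ
      have hneg : -(Point.some x y h) = Point.some x (E.negY x y) ((nonsingular_neg ..).mpr h) :=
        Point.neg_some h
      have e := hred.red_add_some hΔ h' ((nonsingular_neg ..).mpr h) hR hP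
      rw [← hneg, ← hQ', h0, hred.red_neg hΔ] at e
      exact (add_neg_eq_zero.mp e.symm)
  by_cases hQ : InE1 A.valuation Q
  · exact key P Q hQ
  by_cases hP : InE1 A.valuation P
  · rw [add_comm P Q, key Q P hP, add_comm]
  rcases P with _ | ⟨x₁, y₁, h₁⟩
  · exact absurd (inE1_zero _) hP
  rcases Q with _ | ⟨x₂, y₂, h₂⟩
  · exact absurd (inE1_zero _) hQ
  rw [inE1_some, ← not_mem_iff, not_not] at hP hQ
  exact hred.red_add_some hΔ h₁ h₂ hP hQ

/-- The reduction homomorphism (good reduction). -/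
noncomputable def redHom (hΔ : Ē.Δ ≠ 0) : E.Point →+ Ē.Point where
  toFun := red A E Ē
  map_zero' := rfl
  map_add' := hred.red_add hΔ

@[simp] theorem redHom_apply (hΔ : Ē.Δ ≠ 0) (P : E.Point) : hred.redHom hΔ P = red A E Ē P := rfl

omit [DecidableEq (ResidueField A)] in
/-- Reduction is injective on torsion of order prime to the residue characteristic. -/
theorem eq_zero_of_red_eq_zero (hΔ : Ē.Δ ≠ 0) {n : ℕ} (hn : A.valuation (n : L) = 1)
    {P : E.Point} (hP : n • P = 0) (h0 : red A E Ē P = 0) : P = 0 :=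
  eq_zero_of_nsmul_eq_zero hred.integralCoeffs ((hred.red_eq_zero_iff hΔ P).mp h0) hn hP

end IsRed

end Fermat.Agent.RedTors23
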