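/-
S58 brick (b) (helper23): reduction of points of a Weierstrass curve modulo a valuation subring.

Part 5: compatibility of reduction with Frobenius elements, and the transfer of a polynomial
relation `Φ² - aΦ + q = 0` for the Frobenius map `Φ` of the reduced curve to the relation
`σ² - aσ + q = 0` for a Frobenius element `σ` on the prime-to-residue-characteristic torsion of
the generic fibre.
-/
import Mathlib
import Fermat.Prelude.Def_FLTPrelim_GaloisRep
import Fermat.Prelude.Def_FLTPrelim_Ramification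
import Fermat.Prelude.Def_EllipticCurve_FrobeniusTrace
import Fermat.Agent.S05.Kernel
import Fermat.Agent.RedTors23.Rd
import Fermat.Agent.RedTors23.Red
import Fermat.Agent.RedTors23.RedAdd

set_option autoImplicit false

open WeierstrassCurve WeierstrassCurve.Affine IsLocalRing

namespace Fermat.Agent.RedTors23

open Fermat.Agent.S05.Kernel

section Elements

variable {K L : Type*} [Field K] [Field L] [Algebra K L] {A : ValuationSubring L}

/-- an element of the decomposition group preserves `A`. -/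
theorem apply_mem_of_mem_decomposition {σ : L ≃ₐ[K] L} (hσ : σ ∈ A.decompositionSubgroup K)
    {x : L} (hx : x ∈ A) : σ x ∈ A :=
  ((⟨σ, hσ⟩ : A.decompositionSubgroup K) • (⟨x, hx⟩ : A)).2

theorem apply_mem_iff_of_mem_decomposition {σ : L ≃ₐ[K] L} (hσ : σ ∈ A.decompositionSubgroup K)
    (x : L) : σ x ∈ A ↔ x ∈ A := by
  refine ⟨fun h => ?_, apply_mem_of_mem_decomposition hσ⟩
  have h1 := apply_mem_of_mem_decomposition ((A.decompositionSubgroup K).inv_mem hσ) h
  simpa using h1

/-- A Frobenius element reduces to the `q`-power map. -/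
theorem rd_frob {σ : L ≃ₐ[K] L} {q : ℕ} (hσ : A.IsFrobeniusAt σ q) {x : L} (hx : x ∈ A) :
    rd A (σ x) = rd A x ^ q := by
  have hmem := apply_mem_of_mem_decomposition hσ.mem_decompositionSubgroup hx
  have h1 := hσ.smul_residue_eq (residue A ⟨x, hx⟩)
  rw [← ResidueField.residue_smul] at h1
  rw [rd_of_mem hmem, rd_of_mem hx, ← h1]
  rfl

end Elements

section Points

variable {R : Type*} {S : Type*} {L : Type*} [CommRing R] [Field S] [Field L] [DecidableEq L]
  {W' : Affine R} [Algebra R S] [Algebra R L] [Algebra S L] [IsScalarTower R S L]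
  {A : ValuationSubring L} {Ē : Affine (ResidueField A)} [DecidableEq (ResidueField A)]

omit [DecidableEq (ResidueField A)] in
/-- Reduction intertwines a Frobenius element `σ` with any map `Φ` on the points of the reduced
curve which is the `q`-power map on coordinates. -/
theorem red_smul_of_frob (hred : IsRed A (W'⁄L) Ē) (hΔ : Ē.Δ ≠ 0) {σ : L ≃ₐ[S] L} {q : ℕ}
    (hσ : A.IsFrobeniusAt σ q) (Φ : Ē.Point → Ē.Point) (hΦ0 : Φ 0 = 0)
    (hΦ : ∀ (x y : ResidueField A) (h : Ē.Nonsingular x y) (h' : Ē.Nonsingular (x ^ q) (y ^ q)),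
      Φ (Point.some x y h) = Point.some (x ^ q) (y ^ q) h')
    (P : (W'⁄L).Point) : red A (W'⁄L) Ē (σ • P) = Φ (red A (W'⁄L) Ē P) := by
  rcases P with _ | ⟨x, y, h⟩
  · exact hΦ0.symm
  · rw [Point.algEquiv_smul_def]
    change red A (W'⁄L) Ē (Point.map σ.toAlgHom (Point.some x y h)) = _
    rw [Point.map_some]
    by_cases hx : x ∈ A
    · have hy := hred.y_mem h.1 hx
      have hσx : σ x ∈ A := apply_mem_of_mem_decomposition hσ.mem_decompositionSubgroup hx
      have e1 : red A (W'⁄L) Ē (Point.some (σ.toAlgHom x) (σ.toAlgHom y)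
          ((W'.baseChange_nonsingular σ.toAlgHom.injective ..).mpr h)) = _ :=
        hred.red_some hΔ _ hσx
      rw [e1, hred.red_some hΔ h hx]
      have hx' : rd A (σ.toAlgHom x) = rd A x ^ q := rd_frob hσ hx
      have hy' : rd A (σ.toAlgHom y) = rd A y ^ q := rd_frob hσ hy
      have hn := hred.nonsingular_rd hΔ
        ((W'.baseChange_nonsingular σ.toAlgHom.injective ..).mpr h).1 hσx
        (apply_mem_of_mem_decomposition hσ.mem_decompositionSubgroup hy)
      rw [hx', hy'] at hn
      rw [hΦ _ _ _ hn]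
      simp only [Point.some.injEq]
      exact ⟨hx', hy'⟩
    · have hσx : σ.toAlgHom x ∉ A := fun h' =>
        hx ((apply_mem_iff_of_mem_decomposition hσ.mem_decompositionSubgroup x).mp h')
      rw [IsRed.red_some_of_not_mem _ hσx, IsRed.red_some_of_not_mem _ hx, hΦ0]

/-- **Transfer of the Frobenius relation.**  If the `q`-power Frobenius map `Φ` of the reduced curve
satisfies `Φ² - aΦ + q = 0`, then a Frobenius element `σ` at `A` satisfies `σ² - aσ + q = 0` on all
points of the generic fibre killed by an integer `m` which is a unit at `A`. -/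
theorem frob_rel_lift (hred : IsRed A (W'⁄L) Ē) (hΔ : Ē.Δ ≠ 0) {σ : L ≃ₐ[S] L} {q : ℕ}
    (hσ : A.IsFrobeniusAt σ q) (Φ : Ē.Point → Ē.Point) (hΦ0 : Φ 0 = 0)
    (hΦ : ∀ (x y : ResidueField A) (h : Ē.Nonsingular x y) (h' : Ē.Nonsingular (x ^ q) (y ^ q)),
      Φ (Point.some x y h) = Point.some (x ^ q) (y ^ q) h')
    (a : ℤ) (hrel : ∀ Q : Ē.Point, Φ (Φ Q) - a • Φ Q + q • Q = 0)
    {m : ℕ} (hm : A.valuation (m : L) = 1) (Q : (W'⁄L).Point) (hQ : m • Q = 0) :
    σ • σ • Q - a • (σ • Q) + q • Q = 0 := by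
  have hint := red_smul_of_frob hred hΔ hσ Φ hΦ0 hΦ
  apply hred.eq_zero_of_red_eq_zero hΔ hm
  · rw [smul_add, smul_sub, smul_comm m a, smul_comm m q, smul_comm m σ, smul_comm m σ,
      hQ, smul_zero, smul_zero, smul_zero, smul_zero, sub_zero, add_zero]
  · have e : red A (W'⁄L) Ē (σ • σ • Q - a • (σ • Q) + q • Q) =
        red A (W'⁄L) Ē (σ • σ • Q) - a • red A (W'⁄L) Ē (σ • Q) + q • red A (W'⁄L) Ē Q := by
      simp only [← hred.redHom_apply hΔ, map_add, map_sub, map_zsmul, map_nsmul]
    rw [e, hint, hint]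
    exact hrel _

end Points

end Fermat.Agent.RedTors23
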