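/-
S58 brick (b) (helper23): the Eichler–Shimura relation on the prime-to-`r` torsion of the generic
fibre of an integral Weierstrass curve from the Frobenius relation in characteristic `r`.

`FrobRelCharP W` is the statement in characteristic `r` (brick (a)); the main result is
`relQbar_of_frobRelCharP`, whose conclusion is (a strengthening of) `ES.Q58.TraceCong20.RelQbar W`.
-/
import Mathlib
import Fermat.Prelude.Def_FLTPrelim_GaloisRep
import Fermat.Prelude.Def_FLTPrelim_Ramification
import Fermat.Prelude.Def_FLTPrelim_Modularity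
import Fermat.Prelude.Def_EllipticCurve_FrobeniusTrace
import Fermat.Agent.S05.Kernel
import Fermat.Agent.S05.Inertia
import Fermat.Agent.RedTors23.Rd
import Fermat.Agent.RedTors23.Red
import Fermat.Agent.RedTors23.RedAdd
import Fermat.Agent.RedTors23.Frob

set_option autoImplicit false
set_option linter.style.haveILetI false

open WeierstrassCurve WeierstrassCurve.Affine IsLocalRing Polynomial

namespace Fermat.Agent.RedTors23

section ResidueField

variable {L : Type*} [Field L] (A : ValuationSubring L)

/-- If `A` lies over the prime `r`, its residue field has characteristic `r`. -/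
theorem charP_residueField {r : ℕ} (hr : r.Prime) (hA : A.LiesOverPrime r) :
    CharP (ResidueField A) r := by
  rw [CharP.charP_iff_prime_eq_zero hr]
  have h1 : rd A (r : L) = 0 :=
    (rd_eq_zero_iff (natCast_mem r)).mpr ((ValuationSubring.mem_nonunits_iff (A := A)).mp hA)
  rwa [rd_natCast] at h1

/-- The residue field of a valuation subring of an algebraically closed field is algebraically
closed. -/
theorem isAlgClosed_residueField [IsAlgClosed L] : IsAlgClosed (ResidueField A) := by
  apply IsAlgClosed.of_exists_root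
  intro p hmon hirr
  -- lift `p` to a monic polynomial over `A`
  obtain ⟨g, hg, hdeg, hgmon⟩ :=
    Polynomial.lifts_and_degree_eq_and_monic
      ((Polynomial.mem_lifts p).mpr (Polynomial.map_surjective _ residue_surjective p)) hmon
  have hpdeg : p.degree ≠ 0 := Polynomial.degree_pos_of_irreducible hirr |>.ne'
  have hdegL : (g.map (algebraMap A L)).degree ≠ 0 := by
    rw [degree_map_eq_of_injective (FaithfulSMul.algebraMap_injective A L), hdeg]
    exact hpdeg
  obtain ⟨x, hx⟩ := IsAlgClosed.exists_root (g.map (algebraMap A L)) hdegL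
  have hxint : IsIntegral A x := ⟨g, hgmon, by rwa [eval₂_eq_eval_map]⟩
  obtain ⟨a, ha⟩ := (IsIntegrallyClosed.isIntegral_iff (R := A) (K := L)).1 hxint
  have hga : g.IsRoot a := by
    apply FaithfulSMul.algebraMap_injective A L
    rw [map_zero, ← eval₂_at_apply, eval₂_eq_eval_map, ha]
    exact hx
  refine ⟨residue A a, ?_⟩
  rw [← hg, eval_map, eval₂_at_apply, hga.eq_zero, map_zero]

end ResidueField

section Main

local notation "Qb" => AlgebraicClosure ℚ
local notation "GQ" => (AlgebraicClosure ℚ ≃ₐ[ℚ] AlgebraicClosure ℚ)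

/-- **The Frobenius relation in characteristic `r`** (brick (a)): on the reduction of `W` modulo a
good prime `r`, over any algebraically closed field `k` of characteristic `r`, the `r`-power
Frobenius map `Φ` on points satisfies `Φ² - a_r(W) Φ + r = 0`. -/
def FrobRelCharP (W : WeierstrassCurve ℤ) : Prop :=
  ∀ (r : ℕ) [Fact r.Prime], W.IsGoodPrimeFor r →
    ∀ (k : Type) [Field k] [IsAlgClosed k] [DecidableEq k] [Algebra (ZMod r) k]
      (Q : ((W.reductionMod r)⁄k).Point),
      Point.map (W' := W.reductionMod r) (FiniteField.frobeniusAlgHom (ZMod r) k)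
          (Point.map (W' := W.reductionMod r) (FiniteField.frobeniusAlgHom (ZMod r) k) Q)
        - W.apOfModel r • Point.map (W' := W.reductionMod r)
            (FiniteField.frobeniusAlgHom (ZMod r) k) Q + r • Q = 0

variable (W : WeierstrassCurve ℤ)

theorem isRed_of_int {L : Type*} [Field L] (A : ValuationSubring L)
    {E : Affine L} {Ē : Affine (ResidueField A)}
    (hE : W.map (Int.castRingHom L) = E) (hĒ : W.map (Int.castRingHom (ResidueField A)) = Ē) :
    IsRed A E Ē := by
  refine ⟨W.map (Int.castRingHom A), ?_, ?_⟩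
  · rw [← hE]
    show WeierstrassCurve.map (WeierstrassCurve.map W _) _ = _
    rw [WeierstrassCurve.map_map]
    exact congrArg _ (RingHom.ext_int _ _)
  · rw [← hĒ]
    show WeierstrassCurve.map (WeierstrassCurve.map W _) _ = _
    rw [WeierstrassCurve.map_map]
    exact congrArg _ (RingHom.ext_int _ _)

/-- **The Eichler–Shimura relation on the generic fibre** from the Frobenius relation in
characteristic `r`: a Frobenius element `σ` at a good prime `r` satisfies
`σ² - a_r(W) σ + r = 0` on the `m`-torsion of `W(ℚ̄)`, for every `m` prime to `r`. -/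
theorem relQbar_of_frobRelCharP (hF : FrobRelCharP W) :
    ∀ r : ℕ, r.Prime → W.IsGoodPrimeFor r → ∀ m : ℕ, ¬ r ∣ m →
      ∀ (P : ValuationSubring Qb) (σ : GQ), P.LiesOverPrime r → P.IsFrobeniusAt σ r →
      ∀ Q : ((W.map (Int.castRingHom ℚ))⁄Qb).Point, m • Q = 0 →
        σ • σ • Q - W.apOfModel r • (σ • Q) + r • Q = 0 := by
  intro r hr hgood m hm A σ hA hσ Q hQ
  classical
  haveI : Fact r.Prime := ⟨hr⟩
  haveI := charP_residueField A hr hA
  haveI : IsAlgClosed (ResidueField A) := isAlgClosed_residueField A
  letI : Algebra (ZMod r) (ResidueField A) := ZMod.algebra (ResidueField A) r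
  -- the reduced curve
  have hred : IsRed A ((W.map (Int.castRingHom ℚ))⁄Qb) ((W.reductionMod r)⁄(ResidueField A)) := by
    apply isRed_of_int W A
    · show _ = WeierstrassCurve.map (WeierstrassCurve.map W (Int.castRingHom ℚ)) (algebraMap ℚ Qb)
      rw [WeierstrassCurve.map_map]
      exact congrArg _ (RingHom.ext_int _ _)
    · show _ = WeierstrassCurve.map (WeierstrassCurve.map W (Int.castRingHom (ZMod r)))
        (algebraMap (ZMod r) (ResidueField A))
      rw [WeierstrassCurve.map_map]
      exact congrArg _ (RingHom.ext_int _ _)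
  have hΔ : ((W.reductionMod r)⁄(ResidueField A)).Δ ≠ 0 := by
    show ((W.map (Int.castRingHom (ZMod r))).map (algebraMap (ZMod r) (ResidueField A))).Δ ≠ 0
    rw [WeierstrassCurve.map_Δ, WeierstrassCurve.map_Δ]
    intro h0
    have h1 := (map_eq_zero_iff _ (algebraMap (ZMod r) (ResidueField A)).injective).mp h0
    apply hgood
    have h2 : ((W.Δ : ℤ) : ZMod r) = 0 := by simpa using h1
    exact (ZMod.intCast_zmod_eq_zero_iff_dvd _ _).mp h2
  have hmv : A.valuation ((m : ℕ) : Qb) = 1 :=
    Fermat.Agent.S05.Inertia.valuation_natCast_eq_one hr hA hm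
  refine frob_rel_lift hred hΔ hσ
    (Point.map (W' := W.reductionMod r) (FiniteField.frobeniusAlgHom (ZMod r) (ResidueField A)))
    (map_zero _) ?_ (W.apOfModel r) ?_ hmv Q hQ
  · intro x y h h'
    rw [Point.map_some]
    simp only [FiniteField.coe_frobeniusAlgHom, ZMod.card]
  · intro Q'
    exact hF r hgood (ResidueField A) Q'

/-- **Brick (a) in the exact shape of `Fermat.Agent.FrobRel.frobenius_relation`** (helper2, report
129), as a proposition (fields in `Type`, which is all that is needed here). -/
def FrobRelStmt : Prop :=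
  ∀ {r : ℕ} [Fact r.Prime] (E : WeierstrassCurve (ZMod r)) (_ : E.Δ ≠ 0)
    {k : Type} [Field k] [Algebra (ZMod r) k] [DecidableEq k]
    (F : k →ₐ[ZMod r] k) (_ : ∀ x, F x = x ^ r) (Q : (E⁄k).Point),
    Point.map (W' := E) F (Point.map (W' := E) F Q)
      - ((r : ℤ) + 1 - (Nat.card E.toAffine.Point : ℤ)) • Point.map (W' := E) F Q
      + (r : ℤ) • Q = 0

theorem frobRelCharP_of_frobRelStmt (h : FrobRelStmt) : FrobRelCharP W := by
  intro r _ hgood k _ _ _ _ Q
  have hΔ : (W.reductionMod r).Δ ≠ 0 := by
    show (W.map (Int.castRingHom (ZMod r))).Δ ≠ 0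
    rw [WeierstrassCurve.map_Δ]
    intro h0
    apply hgood
    have h2 : ((W.Δ : ℤ) : ZMod r) = 0 := by simpa using h0
    exact (ZMod.intCast_zmod_eq_zero_iff_dvd _ _).mp h2
  have e := h (W.reductionMod r) hΔ (FiniteField.frobeniusAlgHom (ZMod r) k)
    (fun x => by simp only [FiniteField.coe_frobeniusAlgHom, ZMod.card]) Q
  have ha : W.apOfModel r = (r : ℤ) + 1 - (Nat.card (W.reductionMod r).toAffine.Point : ℤ) := by
    simp only [WeierstrassCurve.apOfModel, WeierstrassCurve.traceOfFrobenius,
      WeierstrassCurve.card, Nat.card_zmod]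
  rw [ha, ← natCast_zsmul Q r]
  exact e

/-- **Bricks (a) ⇒ `RelQbar`**: the final statement of brick (b), with brick (a) as a hypothesis in
the shape announced by its owner.  The conclusion is literally (a strengthening of, `Odd m` not
needed) `Fermat.Agent.ES.Q58.TraceCong20.RelQbar W`. -/
theorem relQbar_of_frobRelStmt (h : FrobRelStmt) :
    ∀ r : ℕ, r.Prime → W.IsGoodPrimeFor r → ∀ m : ℕ, ¬ r ∣ m →
      ∀ (P : ValuationSubring Qb) (σ : GQ), P.LiesOverPrime r → P.IsFrobeniusAt σ r →
      ∀ Q : ((W.map (Int.castRingHom ℚ))⁄Qb).Point, m • Q = 0 →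
        σ • σ • Q - W.apOfModel r • (σ • Q) + r • Q = 0 :=
  relQbar_of_frobRelCharP W (frobRelCharP_of_frobRelStmt W h)

end Main

end Fermat.Agent.RedTors23
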