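/-
S58 brick (b) (helper23), final glue: `TraceCong20.RelQbar W` for every integral Weierstrass curve
`W`, from brick (a) in the shape of `Fermat.Agent.FrobRel.frobenius_relation` (`FrobRelStmt`).
-/
import Mathlib
import Fermat.Agent.ES.Q58.TraceCong20
import Fermat.Agent.RedTors23.RelQbar

set_option autoImplicit false

namespace Fermat.Agent.RedTors23

/-- **`RelQbar W` from brick (a).** -/
theorem relQbar (h : FrobRelStmt) (W : WeierstrassCurve ℤ) :
    Fermat.Agent.ES.Q58.TraceCong20.RelQbar W := by
  intro r hr hgood m _ hm P σ hP hσ Q hQ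
  exact relQbar_of_frobRelStmt W h r hr hgood m hm P σ hP hσ Q hQ

end Fermat.Agent.RedTors23
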